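import Fermat.Agent.H97.Hasse.Interfaces
import Fermat.Agent.H16.CftKummerUnram

/-!
# P-CFT / [HASSE], row 950 (HS-C): `LocTrivOfLocNormStatement` (helper27)

BRIDGE-LN, direction "⟸": if `a ∈ Kˣ` is a local norm at `v` from the cyclic extension `M / K` of
prime degree `p`, then the inflation of the standard cocycle of `a` is locally trivial at every
place `A` of `ℚ̄` over `v`.

Proof.  `E := K ⊔ decField A`.  If `M ≤ E` the restricted cocycle is identically `1`
(`GalBaseChangeSplitStatement`).  Otherwise, by `GalBaseChangeStatement` it suffices to write `a`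
as a norm `∏_{k<p} s^k y` with `y ∈ M E`, `s ∈ G_E` a lift of `σ` (obtained from the same
statement applied to `a = 1`).  Write `a = N_{M/K}(y₀) · u` with `u ≡ 1` modulo a high power of
`v`; then `(u - 1) / q^n ∈ A`, so `u = t^p` with `t ∈ E` (`DecHenselStatement`), and
`a = ∏_{k<p} s^k (y₀ t)`.
-/

set_option autoImplicit false

noncomputable section

open NumberField IsDedekindDomain

namespace Fermat.Agent.H27.Hasse

open Fermat.Agent.H13.Cft Fermat.Agent.H78.CFT Fermat.Agent.H61.CFT Fermat.Agent.H97.Hasse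
  groupCohomology

/-- A cochain which is identically `1` is a level coboundary. -/
theorem isLvlMulCoboundary₂E_of_eq_one (E : IntermediateField ℚ Qb)
    (c : E.fixingSubgroup × E.fixingSubgroup → Qbˣ) (hc : ∀ x, c x = 1) :
    IsLvlMulCoboundary₂E E c := by
  obtain ⟨N, hN⟩ := (lvlE E).nonempty
  refine ⟨fun _ => 1, ⟨N, hN, fun _ _ _ => rfl⟩, fun gh => ?_⟩
  rw [hc]
  simp [mulD₁E]

/-- A product over a finite cyclic group, written along the powers of a generator. -/
theorem prod_univ_eq_prod_range_pow {G : Type*} [Group G] [Fintype G] {N : Type*}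
    [CommMonoid N] {g : G} (hg : IsGen g) (f : G → N) :
    ∏ x : G, f x = ∏ k ∈ Finset.range (orderOf g), f (g ^ k) := by
  classical
  have himg : (Finset.range (orderOf g)).image (fun k => g ^ k) = Finset.univ := by
    ext x
    simp only [Finset.mem_image, Finset.mem_range, Finset.mem_univ, iff_true]
    obtain ⟨i, hi⟩ := hg.2 x
    exact ⟨i % orderOf g, Nat.mod_lt _ hg.1, by rw [pow_mod_orderOf, hi]⟩
  rw [← himg, Finset.prod_image]
  intro a ha b hb hab
  exact pow_injOn_Iio_orderOf (Finset.mem_range.1 ha) (Finset.mem_range.1 hb) hab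

/-- The order of a generator of `Gal(M/K)` is the degree. -/
theorem orderOf_eq_finrank_of_isGen {K M : Type*} [Field K] [Field M] [Algebra K M]
    [FiniteDimensional K M] [IsGalois K M] {σ : M ≃ₐ[K] M} (hσ : IsGen σ) :
    orderOf σ = Module.finrank K M := by
  rw [← IsGalois.card_aut_eq_finrank K M]
  exact orderOf_eq_card_of_forall_mem_zpowers hσ.mem_zpowers

/-- An element of `G_K` acts on `M` through its restriction. -/
theorem coe_resEF_apply (K : IntermediateField ℚ Qb) (M : IntermediateField K Qb) [Normal K M]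
    (g : K.fixingSubgroup) (m : M) :
    ((resEF K M g m : M) : Qb) = (g : Qb ≃ₐ[ℚ] Qb) (m : Qb) := by
  have h := AlgEquiv.restrictNormal_commutes (IntermediateField.fixingSubgroupEquiv K g) M m
  exact h

/-- **The norm of `M / K` along the powers of a lift of the generator.** -/
theorem norm_eq_prod_pow_lift {p : ℕ} (K : IntermediateField ℚ Qb) (M : IntermediateField K Qb)
    [FiniteDimensional K M] [IsGalois K M] (hdeg : Module.finrank K M = p)
    {σ : M ≃ₐ[K] M} (hσ : IsGen σ) (g : K.fixingSubgroup) (hg : resEF K M g = σ) (y : M) :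
    (((Algebra.norm K y : K) : Qb)) = ∏ k ∈ Finset.range p, ((g : Qb ≃ₐ[ℚ] Qb) ^ k) (y : Qb) := by
  have h1 : algebraMap K M (Algebra.norm K y) = ∏ τ : M ≃ₐ[K] M, τ y :=
    Algebra.norm_eq_prod_automorphisms K y
  have h2 : ∏ τ : M ≃ₐ[K] M, τ y = ∏ k ∈ Finset.range p, (σ ^ k) y := by
    rw [prod_univ_eq_prod_range_pow hσ (fun τ => τ y), orderOf_eq_finrank_of_isGen hσ, hdeg]
  have h3 : (((Algebra.norm K y : K) : Qb)) = ((algebraMap K M (Algebra.norm K y) : M) : Qb) :=
    rfl
  rw [h3, h1, h2]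
  rw [show ((∏ k ∈ Finset.range p, (σ ^ k) y : M) : Qb)
      = ∏ k ∈ Finset.range p, (((σ ^ k) y : M) : Qb) from
    map_prod (algebraMap M Qb) _ _]
  refine Finset.prod_congr rfl fun k _ => ?_
  have hk : resEF K M (g ^ k) = σ ^ k := by rw [map_pow, hg]
  rw [← hk, coe_resEF_apply]
  rfl

/-- **[HS-C] LocTrivOfLocNorm** (row 950). -/
theorem locTrivOfLocNorm (hGBC : GalBaseChangeStatement) (hSplit : GalBaseChangeSplitStatement)
    (_hDec : DecClosedStatement) (hHensel : DecHenselStatement) :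
    LocTrivOfLocNormStatement := by
  intro p _ K _ M _ _ _ hdeg σ hσ a q hq A hA v hv ha
  have hKE : K ≤ locFieldAt K A := le_locFieldAt K A
  show IsLvlMulCoboundary₂E (locFieldAt K A)
    (resCochain₂ hKE (inflE K M (stdCocycle σ (unitsIncl K M a))))
  by_cases hME : M.restrictScalars ℚ ≤ locFieldAt K A
  · exact isLvlMulCoboundary₂E_of_eq_one _ _
      (hSplit K M σ hσ (unitsIncl K M a) (locFieldAt K A) hKE hME)
  -- a lift `s` of `σ`
  obtain ⟨s, -, hs, -, -⟩ :=
    (hGBC p K M hdeg σ hσ (1 : Kˣ) (locFieldAt K A) hKE hME).mp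
      (isLvlMulCoboundary₂E_of_eq_one _ _ (fun x => by
        rw [resCochain₂_apply]
        show Units.map (algebraMap M Qb : M →* Qb) (stdCocycle σ (unitsIncl K M 1) _) = 1
        rw [map_one, stdCocycle_one, map_one]))
  refine (hGBC p K M hdeg σ hσ a (locFieldAt K A) hKE hME).mpr ?_
  -- the Hensel bound
  obtain ⟨n, hn⟩ := hHensel p q hq A hA K inferInstance
  -- choice of the level `m`
  have hp0 : p ≠ 0 := (Fact.out : p.Prime).ne_zero
  have hq0 : ((q : ℕ) : K) ≠ 0 := Nat.cast_ne_zero.2 hq.ne_zero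
  have hc0 : v.valuation K (((q : ℕ) : K) ^ n) ≠ 0 := by
    rw [Valuation.ne_zero_iff]
    exact pow_ne_zero _ hq0
  obtain ⟨m, hm⟩ : ∃ m : ℕ, WithZero.exp (-((m : ℤ) + 1)) ≤ v.valuation K (((q : ℕ) : K) ^ n) := by
    obtain ⟨z, hz⟩ : ∃ z : ℤ, v.valuation K (((q : ℕ) : K) ^ n) = WithZero.exp z := by
      refine ⟨WithZero.log (v.valuation K (((q : ℕ) : K) ^ n)), ?_⟩
      rw [WithZero.exp_log hc0]
    refine ⟨(-z).toNat, ?_⟩
    rw [hz, WithZero.exp_le_exp]
    have := Int.self_le_toNat (-z)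
    omega
  -- `a = N(y₀) u`
  have ha' : a ∈ Fermat.Agent.H43.Cft.normSubgroup K M ⊔
      Fermat.Agent.H43.Cft.principalUnits K v m := by
    have h := ha
    unfold Fermat.Agent.H43.Cft.locNorm Fermat.Agent.H43.Cft.vClosure at h
    exact (Subgroup.mem_iInf.1 h) m
  obtain ⟨N, hN, u, hu, hNu⟩ := Subgroup.mem_sup.1 ha'
  obtain ⟨y₀, hy₀⟩ := hN
  have hu' : v.valuation K ((u : K) - 1) ≤ WithZero.exp (-((m : ℤ) + 1)) := hu
  -- the dictionary
  have hx : v.valuation K (((u : K) - 1) / ((q : ℕ) : K) ^ n) ≤ 1 := by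
    rw [map_div₀]
    exact div_le_one_of_le₀ (hu'.trans hm) zero_le
  have hxA : A.valuation (((((u : K) - 1) / ((q : ℕ) : K) ^ n : K)) : Qb) ≤ 1 :=
    Fermat.Agent.H16.ku_valuation_le_one hv _ hx
  have hxA' : ((((u : K) : Qb)) - 1) / (q : Qb) ^ n ∈ A := by
    have h := (A.valuation_le_one_iff _).1 hxA
    have e : (((((u : K) - 1) / ((q : ℕ) : K) ^ n : K)) : Qb)
        = ((((u : K) : Qb)) - 1) / (q : Qb) ^ n := by
      push_cast
      rfl
    rwa [e] at h
  obtain ⟨t, htE, htp⟩ := hn ((u : K) : Qb) (hKE (u : K).2) hxA'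
  have hu0 : ((u : K) : Qb) ≠ 0 := by
    intro h
    have : (u : K) = 0 := by exact_mod_cast h
    exact u.ne_zero this
  have ht0 : t ≠ 0 := by
    intro h
    rw [h, zero_pow hp0] at htp
    exact hu0 htp.symm
  have hy0 : (((y₀ : M) : Qb)) ≠ 0 := by
    intro h
    have : (y₀ : M) = 0 := by exact_mod_cast h
    exact y₀.ne_zero this
  refine ⟨s, Units.mk0 ((((y₀ : M) : Qb)) * t) (mul_ne_zero hy0 ht0), hs, ?_, ?_⟩
  · show (((y₀ : M) : Qb)) * t ∈ M.restrictScalars ℚ ⊔ locFieldAt K A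
    refine mul_mem ?_ ?_
    · exact (le_sup_left : M.restrictScalars ℚ ≤ _) (y₀ : M).2
    · exact (le_sup_right : locFieldAt K A ≤ _) htE
  · show ((a : K) : Qb) = ∏ k ∈ Finset.range p,
      (((s : Qb ≃ₐ[ℚ] Qb)) ^ k) ((((y₀ : M) : Qb)) * t)
    have hst : ∀ k : ℕ, (((s : Qb ≃ₐ[ℚ] Qb)) ^ k) t = t := by
      intro k
      have hsk : ((s : Qb ≃ₐ[ℚ] Qb)) ^ k ∈ (locFieldAt K A).fixingSubgroup :=
        Subgroup.pow_mem _ s.2 k
      exact (IntermediateField.mem_fixingSubgroup_iff _ _).1 hsk t htE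
    have hnorm := norm_eq_prod_pow_lift K M hdeg hσ (incl hKE s) hs (y₀ : M)
    have haN : ((a : K) : Qb) = (((Algebra.norm K (y₀ : M) : K)) : Qb) * ((u : K) : Qb) := by
      rw [← hNu, ← hy₀]
      push_cast
      rfl
    rw [haN, hnorm]
    have e : ∀ k ∈ Finset.range p, (((s : Qb ≃ₐ[ℚ] Qb)) ^ k) ((((y₀ : M) : Qb)) * t)
        = ((((incl hKE s : K.fixingSubgroup) : Qb ≃ₐ[ℚ] Qb)) ^ k) ((y₀ : M) : Qb) * t := by
      intro k _
      rw [map_mul, hst k]
      rfl
    rw [Finset.prod_congr rfl e, Finset.prod_mul_distrib, Finset.prod_const, Finset.card_range,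
      htp]

end Fermat.Agent.H27.Hasse

end
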