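import Fermat.Agent.H75.Coh2Transfer

/-!
# P-CFT / [HASSE], helpers for HS-F (SylowReduction): finite-level transfer (helper27)

Mathlib language `IsMulCocycle₂` / `IsMulCoboundary₂`, `M` a commutative group with a
`MulDistribMulAction` of `G`.

* `isMulCoboundary₂_pow_index` (F1): if the restriction of a 2-cocycle `c` to a subgroup `P` of
  finite index is a coboundary, then `c ^ [G : P]` is a coboundary
  (from `Fermat.Agent.H75.Coh2.exists_cobound_card_smul`).
* `isMulCoboundary₂_of_coprime` (F2): if `c ^ m` and `c ^ n` are coboundaries and `m`, `n` are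
  coprime, then `c` is a coboundary.
-/

set_option autoImplicit false

noncomputable section

namespace Fermat.Agent.H27.Hasse

open groupCohomology

section basic

variable {G M : Type} [Group G] [CommGroup M] [MulDistribMulAction G M]

/-- Coboundaries are closed under products. -/
theorem isMulCoboundary₂_mul {c c' : G × G → M} (hc : IsMulCoboundary₂ c)
    (hc' : IsMulCoboundary₂ c') : IsMulCoboundary₂ (fun x => c x * c' x) := by
  obtain ⟨x, hx⟩ := hc
  obtain ⟨x', hx'⟩ := hc'
  refine ⟨fun g => x g * x' g, fun g h => ?_⟩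
  show g • (x h * x' h) / (x (g * h) * x' (g * h)) * (x g * x' g) = c (g, h) * c' (g, h)
  rw [← hx g h, ← hx' g h, smul_mul']
  simp only [div_eq_mul_inv, mul_inv]
  ac_rfl

/-- Coboundaries are closed under integer powers. -/
theorem isMulCoboundary₂_zpow {c : G × G → M} (hc : IsMulCoboundary₂ c) (a : ℤ) :
    IsMulCoboundary₂ (fun x => c x ^ a) := by
  obtain ⟨x, hx⟩ := hc
  refine ⟨fun g => x g ^ a, fun g h => ?_⟩
  show g • (x h ^ a) / x (g * h) ^ a * x g ^ a = c (g, h) ^ a
  rw [← hx g h]
  have h1 : g • (x h ^ a) = (g • x h) ^ a :=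
    map_zpow (MulDistribMulAction.toMonoidHom M g) (x h) a
  rw [h1, mul_zpow, div_zpow]

/-- **(F2)** coprime exponents. -/
theorem isMulCoboundary₂_of_coprime {c : G × G → M} {m n : ℕ} (hmn : Nat.Coprime m n)
    (hm : IsMulCoboundary₂ (fun x => c x ^ m)) (hn : IsMulCoboundary₂ (fun x => c x ^ n)) :
    IsMulCoboundary₂ c := by
  have hb : (m : ℤ) * Nat.gcdA m n + (n : ℤ) * Nat.gcdB m n = 1 := by
    have := Nat.gcd_eq_gcd_ab m n
    rw [hmn] at this
    exact_mod_cast this.symm
  have h := isMulCoboundary₂_mul (isMulCoboundary₂_zpow hm (Nat.gcdA m n))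
    (isMulCoboundary₂_zpow hn (Nat.gcdB m n))
  have e : (fun x => (c x ^ m) ^ Nat.gcdA m n * (c x ^ n) ^ Nat.gcdB m n) = c := by
    funext x
    rw [← zpow_natCast, ← zpow_natCast, ← zpow_mul, ← zpow_mul, ← zpow_add, hb, zpow_one]
  rwa [e] at h

end basic

section transfer

variable {G M : Type} [Group G] [CommGroup M] [MulDistribMulAction G M]

/-- **(F1)** transfer: if the restriction of the 2-cocycle `c` to the subgroup `P` of finite index
is the coboundary of a cochain `b`, then `c ^ [G : P]` is a coboundary. -/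
theorem isMulCoboundary₂_pow_index (P : Subgroup G) [P.FiniteIndex] {c : G × G → M}
    (hc : IsMulCocycle₂ c) (b : G → M)
    (hb : ∀ h ∈ P, ∀ j ∈ P, h • b j / b (h * j) * b h = c (h, j)) :
    IsMulCoboundary₂ (fun x => c x ^ P.index) := by
  classical
  haveI : Fintype (G ⧸ P) := Subgroup.fintypeQuotientOfFiniteIndex
  let ρ : Representation ℤ G (Additive M) := Representation.ofMulDistribMulAction G M
  have hρ : ∀ (g : G) (y : Additive M), ρ g y = Additive.ofMul (g • Additive.toMul y) :=
    fun _ _ => rfl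
  obtain ⟨a, ha⟩ := Fermat.Agent.H75.Coh2.exists_cobound_card_smul ρ P
    (fun x => Additive.ofMul (c x))
    (fun g h j => by
      rw [hρ]
      exact congrArg Additive.ofMul (hc g h j))
    (fun g => Additive.ofMul (b g))
    (fun h hh j hj => by
      rw [hρ]
      exact congrArg Additive.ofMul (hb h hh j hj).symm)
  refine ⟨fun g => Additive.toMul (a g), fun g h => ?_⟩
  have h1 := congrArg Additive.toMul (ha g h)
  rw [hρ] at h1
  rw [Subgroup.index_eq_card, Nat.card_eq_fintype_card]
  exact h1

/-- **(F1)**, subtype form: the restriction of `c` to `P` is a coboundary for the restricted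
action of `P`. -/
theorem isMulCoboundary₂_pow_index' (P : Subgroup G) [P.FiniteIndex] {c : G × G → M}
    (hc : IsMulCocycle₂ c)
    (hP : ∃ b : P → M, ∀ h j : P, (h : G) • b j / b (h * j) * b h = c ((h : G), (j : G))) :
    IsMulCoboundary₂ (fun x => c x ^ P.index) := by
  classical
  obtain ⟨b, hb⟩ := hP
  refine isMulCoboundary₂_pow_index P hc
    (fun g => if hg : g ∈ P then b ⟨g, hg⟩ else 1) (fun h hh j hj => ?_)
  rw [dif_pos hj, dif_pos hh, dif_pos (P.mul_mem hh hj)]
  exact hb ⟨h, hh⟩ ⟨j, hj⟩

end transfer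

end Fermat.Agent.H27.Hasse

end
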